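/-
S32lib / Alg (helper8): **bounded saturation index.**  `L` a submodule of a Noetherian module `Λ`
over `R`, `x ∈ R`.  There is `c` such that `x^n • y ∈ L` (some `n`) implies `x^c • y ∈ L`.
Also: for a free module `V`, `v ∈ I • ⊤` iff all coordinates lie in `I`, hence
`(I₁ • ⊤) ⊓ (I₂ • ⊤) = (I₁ ⊓ I₂) • ⊤`.
-/
import Mathlib

set_option autoImplicit false
set_option linter.unusedSectionVars false

noncomputable section

namespace Fermat.Agent.S32lib

section satbound

variable {R Λ : Type*} [CommRing R] [AddCommGroup Λ] [Module R Λ] [IsNoetherian R Λ]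

/-- **bounded saturation index.** -/
theorem exists_saturation_bound (L : Submodule R Λ) (x : R) :
    ∃ c : ℕ, ∀ (y : Λ) (n : ℕ), x ^ n • y ∈ L → x ^ c • y ∈ L := by
  classical
  let Sat : Submodule R Λ :=
    { carrier := {y | ∃ n : ℕ, x ^ n • y ∈ L}
      add_mem' := by
        rintro y y' ⟨n, hn⟩ ⟨n', hn'⟩
        refine ⟨n + n', ?_⟩
        rw [smul_add]
        refine L.add_mem ?_ ?_
        · rw [pow_add, mul_comm, mul_smul]
          exact L.smul_mem _ hn
        · rw [pow_add, mul_smul]
          exact L.smul_mem _ hn'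
      zero_mem' := ⟨0, by rw [smul_zero]; exact L.zero_mem⟩
      smul_mem' := by
        rintro r y ⟨n, hn⟩
        refine ⟨n, ?_⟩
        rw [smul_comm]
        exact L.smul_mem _ hn }
  obtain ⟨s, hs⟩ : Sat.FG := IsNoetherian.noetherian Sat
  have hmem : ∀ y ∈ s, ∃ n : ℕ, x ^ n • y ∈ L := by
    intro y hy
    have : y ∈ Sat := by
      rw [← hs]
      exact Submodule.subset_span hy
    exact this
  choose! ν hν using hmem
  have key : ∀ y ∈ Submodule.span R (s : Set Λ), x ^ s.sup ν • y ∈ L := by
    intro y hySat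
    induction hySat using Submodule.span_induction with
    | mem z hz =>
      have hle : ν z ≤ s.sup ν := Finset.le_sup hz
      obtain ⟨k, hk⟩ := Nat.exists_eq_add_of_le hle
      rw [hk, pow_add, mul_comm, mul_smul]
      exact L.smul_mem _ (hν z hz)
    | zero =>
      rw [smul_zero]
      exact L.zero_mem
    | add z z' _ _ hz hz' =>
      rw [smul_add]
      exact L.add_mem hz hz'
    | smul r z _ hz =>
      rw [smul_comm]
      exact L.smul_mem _ hz

  refine ⟨s.sup ν, fun y n hy => key y ?_⟩
  rw [hs]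
  exact ⟨n, hy⟩

end satbound

section smultop

variable {R V ι : Type*} [CommRing R] [AddCommGroup V] [Module R V]

theorem mem_smul_top_iff_repr (b : Module.Basis ι R V) (I : Ideal R) (v : V) :
    v ∈ I • (⊤ : Submodule R V) ↔ ∀ i, b.repr v i ∈ I := by
  constructor
  · intro hv i
    refine Submodule.smul_induction_on hv ?_ ?_
    · intro r hr m _
      rw [map_smul, Finsupp.smul_apply, smul_eq_mul]
      exact Ideal.mul_mem_right _ _ hr
    · intro x y hx hy
      rw [map_add, Finsupp.add_apply]
      exact Ideal.add_mem _ hx hy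
  · intro h
    rw [← b.linearCombination_repr v, Finsupp.linearCombination_apply]
    exact Submodule.sum_mem _ fun i _ => Submodule.smul_mem_smul (h i) Submodule.mem_top

theorem smul_top_inf_smul_top (b : Module.Basis ι R V) (I₁ I₂ : Ideal R) :
    (I₁ • (⊤ : Submodule R V)) ⊓ (I₂ • (⊤ : Submodule R V)) = (I₁ ⊓ I₂) • (⊤ : Submodule R V) := by
  ext v
  rw [Submodule.mem_inf, mem_smul_top_iff_repr b, mem_smul_top_iff_repr b,
    mem_smul_top_iff_repr b]
  constructor
  · rintro ⟨h1, h2⟩ i
    exact ⟨h1 i, h2 i⟩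
  · intro h
    exact ⟨fun i => (h i).1, fun i => (h i).2⟩

end smultop

end Fermat.Agent.S32lib
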